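/-
Cluster L (S41, level raising), work package NEW-B.  Owner: helper8.

**Master lemma** (`periodMap_op`): the period map intertwines a "double coset operator" on
cusp forms with the operator `WreathHom.op` on `Hom(Γ₀(K), ℂ)`.

If `F : WreathHom Γ₀(K) Γ₀(K') I` is realized inside `GL₂(ℝ)` by integer matrices `M i` of
positive determinant (`M i * γ = elt γ i * M (perm γ i)`), `h` is a weight `2` cusp form of
level `K'` and `h'` one of level `K` with `h' = ∑ i, h ∣[2] M i`, then
`periodMap K h' = F.op ℂ (periodMap K' h)`.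
-/
import Fermat.Agent.L.Degen.Wreath
import Fermat.Agent.L.Degen.IntMat
import Fermat.Agent.S21.Parabolic

set_option autoImplicit false

noncomputable section

namespace Fermat.Agent.LNewB

open Complex Filter Function CongruenceSubgroup Matrix.SpecialLinearGroup ModularCurve
  ModularCurve.Period Fermat.Agent.LDeg
open UpperHalfPlane hiding I
open scoped Real Topology Manifold MatrixGroups ModularForm

/-- Chain rule for the Möbius action of `GL₂(ℝ)⁺`: if `F` is a primitive of `f`, then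
`F ∘ g` is a primitive of `f ∣[2] g`. -/
theorem hasDerivAt_comp_glsmul {F f : ℍ → ℂ}
    (hF : ∀ τ : ℍ, HasDerivAt (F ∘ ofComplex) (f τ) τ) {g : GL (Fin 2) ℝ}
    (hg : 0 < g.val.det) (τ : ℍ) :
    HasDerivAt ((fun w : ℍ => F (g • w)) ∘ ofComplex) ((f ∣[(2 : ℤ)] g) τ) τ := by
  have h1 : HasDerivAt (fun z : ℂ => (((g • ofComplex z : ℍ)) : ℂ))
      ((g.val.det : ℂ) / denom g τ ^ 2) τ :=
    (hasStrictDerivAt_smul hg τ).hasDerivAt
  have h2 : HasDerivAt (F ∘ ofComplex) (f (g • ofComplex (τ : ℂ)))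
      (((g • ofComplex (τ : ℂ) : ℍ)) : ℂ) := hF _
  have h3 := h2.comp (τ : ℂ) h1
  have e1 : ((fun w : ℍ => F (g • w)) ∘ ofComplex) =
      (F ∘ ofComplex) ∘ (fun z : ℂ => (((g • ofComplex z : ℍ)) : ℂ)) := by
    funext z
    simp [Function.comp]
  rw [e1]
  have hdet : g.det.val = g.val.det := Matrix.GeneralLinearGroup.val_det_apply g
  have hσ : ∀ x : ℂ, σ g x = x := fun x => by simp [σ, hdet, hg]
  have e2 : f (g • ofComplex (τ : ℂ)) * ((g.val.det : ℂ) / denom g τ ^ 2) =
      (f ∣[(2 : ℤ)] g) τ := by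
    rw [ModularForm.slash_apply, hσ, hdet, abs_of_pos hg, ofComplex_apply]
    simp only [zpow_neg]
    norm_num
    ring
  rw [← e2]
  exact h3

/-- Every integer matrix of positive determinant is `δ * U` with `δ ∈ SL₂(ℤ)` and `U` upper
triangular with positive diagonal. -/
theorem exists_SL_mul_upper (M : Matrix (Fin 2) (Fin 2) ℤ) (hM : 0 < M.det) :
    ∃ (δ : SL(2, ℤ)) (a b d : ℤ), 0 < a ∧ 0 < d ∧
      M = (δ : Matrix (Fin 2) (Fin 2) ℤ) * !![a, b; 0, d] := by
  obtain ⟨x, hx⟩ : ∃ x, x = M 0 0 := ⟨_, rfl⟩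
  obtain ⟨y, hy⟩ : ∃ y, y = M 0 1 := ⟨_, rfl⟩
  obtain ⟨z, hz⟩ : ∃ z, z = M 1 0 := ⟨_, rfl⟩
  obtain ⟨w, hw⟩ : ∃ w, w = M 1 1 := ⟨_, rfl⟩
  have hdet : x * w - y * z = M.det := by rw [Matrix.det_fin_two, hx, hy, hz, hw]
  have hg0 : ((Int.gcd x z : ℕ) : ℤ) ≠ 0 := by
    intro h
    have h' : Int.gcd x z = 0 := by exact_mod_cast h
    have h2 := Int.gcd_eq_zero_iff.mp h'
    rw [h2.1, h2.2] at hdet
    simp at hdet
    omega
  have hgpos : (0 : ℤ) < ((Int.gcd x z : ℕ) : ℤ) := by
    rcases lt_or_eq_of_le (Int.natCast_nonneg (Int.gcd x z)) with h | h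
    · exact h
    · exact absurd h.symm hg0
  obtain ⟨x', hx'⟩ : ((Int.gcd x z : ℕ) : ℤ) ∣ x := Int.gcd_dvd_left ..
  obtain ⟨z', hz'⟩ : ((Int.gcd x z : ℕ) : ℤ) ∣ z := Int.gcd_dvd_right ..
  have hbez : ((Int.gcd x z : ℕ) : ℤ) = x * Int.gcdA x z + z * Int.gcdB x z :=
    Int.gcd_eq_gcd_ab x z
  obtain ⟨u, hu⟩ : ∃ u, u = Int.gcdA x z := ⟨_, rfl⟩
  obtain ⟨v, hv⟩ : ∃ v, v = Int.gcdB x z := ⟨_, rfl⟩
  obtain ⟨g, hg⟩ : ∃ g : ℤ, g = ((Int.gcd x z : ℕ) : ℤ) := ⟨_, rfl⟩
  rw [← hu, ← hv, ← hg] at hbez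
  rw [← hg] at hx' hz' hg0 hgpos
  have h1 : x' * u + z' * v = 1 := by
    have h2 : g * (x' * u + z' * v) = g * 1 := by
      rw [mul_one]
      calc g * (x' * u + z' * v) = (g * x') * u + (g * z') * v := by ring
        _ = x * u + z * v := by rw [← hx', ← hz']
        _ = g := hbez.symm
    exact mul_left_cancel₀ hg0 h2
  have hd : g * (x' * w - z' * y) = M.det := by
    rw [← hdet]
    calc g * (x' * w - z' * y) = (g * x') * w - y * (g * z') := by ring
      _ = x * w - y * z := by rw [← hx', ← hz']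
  have hdpos : 0 < x' * w - z' * y := by
    by_contra hneg
    have h3 : x' * w - z' * y ≤ 0 := not_lt.mp hneg
    have h4 : g * (x' * w - z' * y) ≤ 0 := mul_nonpos_of_nonneg_of_nonpos hgpos.le h3
    rw [hd] at h4
    omega
  refine ⟨⟨!![x', -v; z', u], by rw [Matrix.det_fin_two_of]; linarith⟩, g, u * y + v * w,
    x' * w - z' * y, hgpos, hdpos, ?_⟩
  have e : M = !![x, y; z, w] := by
    rw [hx, hy, hz, hw]
    exact Matrix.eta_fin_two M
  have e00 : x = x' * g + -v * 0 := by rw [hx']; ring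
  have e01 : y = x' * (u * y + v * w) + -v * (x' * w - z' * y) := by
    linear_combination (-y) * h1
  have e10 : z = z' * g + u * 0 := by rw [hz']; ring
  have e11 : w = z' * (u * y + v * w) + u * (x' * w - z' * y) := by
    linear_combination (-w) * h1
  show M = !![x', -v; z', u] * !![g, u * y + v * w; 0, x' * w - z' * y]
  rw [Matrix.mul_fin_two, ← e00, ← e01, ← e10, ← e11]
  exact e

theorem det_upper (a b d : ℤ) : (!![a, b; 0, d] : Matrix (Fin 2) (Fin 2) ℤ).det = a * d := by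
  rw [Matrix.det_fin_two_of]
  ring

theorem det_upper_ne_zero {a d : ℤ} (ha : 0 < a) (hd : 0 < d) (b : ℤ) :
    (!![a, b; 0, d] : Matrix (Fin 2) (Fin 2) ℤ).det ≠ 0 := by
  rw [det_upper]
  exact (mul_pos ha hd).ne'

theorem val_det_intGL (M : Matrix (Fin 2) (Fin 2) ℤ) (h : M.det ≠ 0) :
    (intGL M h).val.det = ((M.det : ℤ) : ℝ) := by
  rw [coe_intGL, ← RingHom.map_det]
  rfl

theorem val_det_intGL_pos (M : Matrix (Fin 2) (Fin 2) ℤ) (h : 0 < M.det) :
    0 < (intGL M h.ne').val.det := by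
  rw [val_det_intGL]
  exact_mod_cast h

/-- An upper triangular integer matrix with positive diagonal maps `atImInfty` to itself. -/
theorem tendsto_upper_smul_atImInfty {a d : ℤ} (ha : 0 < a) (hd : 0 < d) (b : ℤ) :
    Tendsto (fun w : ℍ => intGL !![a, b; 0, d] (det_upper_ne_zero ha hd b) • w)
      atImInfty atImInfty := by
  rw [atImInfty, tendsto_comap_iff]
  have him : ∀ w : ℍ, (intGL !![a, b; 0, d] (det_upper_ne_zero ha hd b) • w).im =
      ((a : ℝ) / (d : ℝ)) * w.im := by
    intro w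
    rw [UpperHalfPlane.im_smul_eq_div_normSq, Matrix.GeneralLinearGroup.val_det_apply,
      val_det_intGL, det_upper]
    have hden : denom (intGL !![a, b; 0, d] (det_upper_ne_zero ha hd b)) w = (d : ℂ) := by
      simp [denom]
    rw [hden]
    have hd' : (d : ℝ) ≠ 0 := by exact_mod_cast hd.ne'
    have hpos : (0 : ℝ) < ((a * d : ℤ) : ℝ) := by exact_mod_cast mul_pos ha hd
    rw [abs_of_pos hpos]
    have hn : Complex.normSq (d : ℂ) = (d : ℝ) * (d : ℝ) := by
      rw [← Complex.ofReal_intCast, Complex.normSq_ofReal]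
    rw [hn]
    push_cast
    field_simp
  have hfun : (UpperHalfPlane.im ∘ fun w : ℍ =>
      intGL !![a, b; 0, d] (det_upper_ne_zero ha hd b) • w) =
      fun w : ℍ => ((a : ℝ) / (d : ℝ)) * w.im := funext him
  rw [hfun]
  have hc : (0 : ℝ) < (a : ℝ) / (d : ℝ) := by
    apply div_pos <;> exact_mod_cast ‹_›
  exact (tendsto_comap.const_mul_atTop hc)

/-- An equivariant primitive of a cusp form has a limit at `i∞` along every integer matrix of
positive determinant. -/
theorem exists_tendsto_comp_intGL {K : ℕ} {h : CuspForm (Gamma0 K) 2} {E : ℍ → ℂ}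
    (hE : HasEquivariantPrimitive K h E) (M : Matrix (Fin 2) (Fin 2) ℤ) (hM : 0 < M.det) :
    ∃ L : ℂ, Tendsto (fun w : ℍ => E (intGL M hM.ne' • w)) atImInfty (𝓝 L) := by
  obtain ⟨δ, a, b, d, ha, hd, e⟩ := exists_SL_mul_upper M hM
  obtain ⟨L, hL⟩ := hE.2.2.2 δ
  refine ⟨L, ?_⟩
  have hmul : intGL M hM.ne' =
      mapGL ℝ δ * intGL !![a, b; 0, d] (det_upper_ne_zero ha hd b) := by
    rw [mapGL_eq_intGL, intGL_eq_mul_iff]
    exact e
  have hfun : (fun w : ℍ => E (intGL M hM.ne' • w)) =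
      (fun w : ℍ => E (δ • w)) ∘
        (fun w : ℍ => intGL !![a, b; 0, d] (det_upper_ne_zero ha hd b) • w) := by
    funext w
    simp only [Function.comp]
    rw [hmul, mul_smul]
    rfl
  rw [hfun]
  exact hL.comp (tendsto_upper_smul_atImInfty ha hd b)

/-- The defining property of an equivariant primitive, in terms of the period map. -/
theorem primitive_smul_eq {K : ℕ} {h : CuspForm (Gamma0 K) 2} {E : ℍ → ℂ}
    (hE : HasEquivariantPrimitive K h E) (γ : Gamma0 K) (z : ℍ) :
    E (iotaG K γ • z) = E z + periodMap K h (Additive.ofMul γ) := by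
  have h1 := hE.2.2.1.sub_eq_period γ z
  have h2 : periodMap K h (Additive.ofMul γ) = hE.2.2.1.period γ := by
    rw [S21.periodMap_eq_periodHom K h hE]
    rfl
  rw [h2, ← h1]
  have h3 : iotaG K γ • z = (γ : SL(2, ℤ)) • z := rfl
  rw [h3]
  ring

/-- **Master lemma.**  The period map intertwines a double coset operator on cusp forms, given
by integer matrices `M i` of positive determinant, with the operator `WreathHom.op` on
`Hom(Γ₀(K), ℂ)`. -/
theorem periodMap_op {K K' : ℕ} [NeZero K'] {I : Type*} [Fintype I]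
    (F : WreathHom (Gamma0 K) (Gamma0 K') I) (M : I → Matrix (Fin 2) (Fin 2) ℤ)
    (hM : ∀ i, 0 < (M i).det)
    (hF : F.Realizes (iotaG K) (iotaG K') (fun i => intGL (M i) (hM i).ne'))
    (h : CuspForm (Gamma0 K') 2) (h' : CuspForm (Gamma0 K) 2)
    (hsum : ∀ τ : ℍ, h' τ = ∑ i, ((h : ℍ → ℂ) ∣[(2 : ℤ)] intGL (M i) (hM i).ne') τ) :
    periodMap K h' = F.op ℂ (periodMap K' h) := by
  obtain ⟨E, hE⟩ := S21.exists_hasEquivariantPrimitive K' h
  choose L hL using fun i => exists_tendsto_comp_intGL hE (M i) (hM i)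
  -- the key relation
  have key : ∀ (γ : Gamma0 K) (w : ℍ) (i : I),
      E (intGL (M i) (hM i).ne' • ((γ : SL(2, ℤ)) • w)) =
        E (intGL (M (F.perm γ i)) (hM _).ne' • w) +
          periodMap K' h (Additive.ofMul (F.elt γ i)) := by
    intro γ w i
    have h1 : (γ : SL(2, ℤ)) • w = iotaG K γ • w := rfl
    rw [h1, ← mul_smul, hF γ i, mul_smul, primitive_smul_eq hE]
  have hΨ : HasEquivariantPrimitive K h'
      (fun w : ℍ => ∑ i, (E (intGL (M i) (hM i).ne' • w) - L i)) := by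
    refine ⟨fun τ => ?_, ?_, fun γ => ?_, fun δ => ?_⟩
    · -- derivative
      rw [hsum τ]
      have hd : ∀ i ∈ (Finset.univ : Finset I),
          HasDerivAt ((fun w : ℍ => E (intGL (M i) (hM i).ne' • w) - L i) ∘ ofComplex)
            (((h : ℍ → ℂ) ∣[(2 : ℤ)] intGL (M i) (hM i).ne') τ) τ := by
        intro i _
        have := (hasDerivAt_comp_glsmul hE.1 (val_det_intGL_pos (M i) (hM i)) τ).sub_const (L i)
        exact this
      have hs := HasDerivAt.fun_sum hd
      refine hs.congr_of_eventuallyEq (Eventually.of_forall fun z => ?_)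
      simp [Function.comp]
    · -- limit at `i∞`
      have hs : Tendsto (fun w : ℍ => ∑ i, (E (intGL (M i) (hM i).ne' • w) - L i)) atImInfty
          (𝓝 (∑ i : I, (L i - L i))) :=
        tendsto_finsetSum _ fun i _ => (hL i).sub_const (L i)
      simpa using hs
    · -- equivariance
      refine ⟨∑ i, periodMap K' h (Additive.ofMul (F.elt γ i)), fun z => ?_⟩
      have hperm : ∑ i : I, E (intGL (M (F.perm γ i)) (hM _).ne' • z) =
          ∑ i : I, E (intGL (M i) (hM i).ne' • z) :=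
        Equiv.sum_comp (F.permEquiv γ) (fun i => E (intGL (M i) (hM i).ne' • z))
      simp only [key γ z, Finset.sum_sub_distrib, Finset.sum_add_distrib, hperm]
      ring
    · -- limits at the cusps
      have hdet : ∀ i, 0 < (M i * (δ : Matrix (Fin 2) (Fin 2) ℤ)).det := by
        intro i
        rw [Matrix.det_mul, δ.det_coe, mul_one]
        exact hM i
      choose L' hL' using fun i => exists_tendsto_comp_intGL hE _ (hdet i)
      refine ⟨∑ i, (L' i - L i), ?_⟩
      have hfun : (fun w : ℍ => ∑ i, (E (intGL (M i) (hM i).ne' • (δ • w)) - L i)) =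
          fun w : ℍ => ∑ i, (E (intGL (M i * (δ : Matrix (Fin 2) (Fin 2) ℤ)) (hdet i).ne' • w)
            - L i) := by
        funext w
        refine Finset.sum_congr rfl fun i _ => ?_
        have h1 : δ • w = mapGL ℝ δ • w := rfl
        have h2 : intGL (M i) (hM i).ne' * mapGL ℝ δ =
            intGL (M i * (δ : Matrix (Fin 2) (Fin 2) ℤ)) (hdet i).ne' := by
          rw [mapGL_eq_intGL]
          apply Units.ext
          simp only [Units.val_mul, coe_intGL, ← map_mul]
        rw [h1, ← mul_smul, h2]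
      rw [hfun]
      exact tendsto_finsetSum _ fun i _ => (hL' i).sub_const (L i)
  refine AddMonoidHom.ext fun γ => ?_
  obtain ⟨γ, rfl⟩ := Additive.ofMul.surjective γ
  rw [S21.periodMap_apply K h' hΨ γ, WreathHom.op_apply]
  have hperm : ∑ i : I, E (intGL (M (F.perm γ i)) (hM _).ne' • UpperHalfPlane.I) =
      ∑ i : I, E (intGL (M i) (hM i).ne' • UpperHalfPlane.I) :=
    Equiv.sum_comp (F.permEquiv γ) (fun i => E (intGL (M i) (hM i).ne' • UpperHalfPlane.I))
  simp only [key γ UpperHalfPlane.I, Finset.sum_sub_distrib, Finset.sum_add_distrib, hperm]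
  ring

end Fermat.Agent.LNewB
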