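/-
Cluster L (S41, level raising), work package NEW-B.  Owner: helper8.

The period map intertwines the trace `S₂(Γ₀(N q)) → S₂(Γ₀(N))` with the corestriction
`Hom(Γ₀(N q), ℂ) → Hom(Γ₀(N), ℂ)` (`periodMap_trLin`).
-/
import Fermat.Agent.L.NewB.PeriodOp
import Fermat.Agent.L.Degen.CoresIndex
import Fermat.Agent.L.New.Defs

set_option autoImplicit false

noncomputable section

namespace Fermat.Agent.LNewB

open Complex Filter Function CongruenceSubgroup Matrix.SpecialLinearGroup ModularCurve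
  ModularCurve.Period Fermat.Agent.LDeg Fermat.Agent.LNew Fermat.Agent.L
open UpperHalfPlane hiding I
open scoped Real Topology Manifold MatrixGroups ModularForm

variable {N q : ℕ}

/-- The integer matrix of an element of `Γ₀(K)`. -/
def gMat {K : ℕ} (g : Gamma0 K) : Matrix (Fin 2) (Fin 2) ℤ := ((g : SL(2, ℤ)) : Matrix (Fin 2) (Fin 2) ℤ)

theorem det_gMat {K : ℕ} (g : Gamma0 K) : (gMat g).det = 1 := (g : SL(2, ℤ)).det_coe

theorem det_gMat_pos {K : ℕ} (g : Gamma0 K) : 0 < (gMat g).det := by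
  rw [det_gMat]
  exact one_pos

theorem iotaG_eq_intGL_gMat {K : ℕ} (g : Gamma0 K) :
    iotaG K g = intGL (gMat g) (det_gMat_pos g).ne' :=
  iotaG_eq_intGL K g

theorem iotaG_incl (e : Gamma0 (N * q)) : iotaG N (incl N q e) = iotaG (N * q) e := rfl

/-- `coresW` is realized in `GL₂(ℝ)` by the matrices of the representatives `coresRep`. -/
theorem coresW_realizes_GL (hq : q.Prime) (hqN : ¬ q ∣ N) :
    (coresW hq hqN).Realizes (iotaG N) (iotaG (N * q))
      (fun y => intGL (gMat (coresRep N q y)) (det_gMat_pos _).ne') := by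
  intro γ y
  have h := coresW_realizes hq hqN γ y
  have h2 := congrArg (iotaG N) h
  rw [map_mul, map_mul, MonoidHom.id_apply, iotaG_incl] at h2
  show intGL (gMat (coresRep N q y)) _ * iotaG N γ =
    iotaG (N * q) ((coresW hq hqN).elt γ y) *
      intGL (gMat (coresRep N q ((coresW hq hqN).perm γ y))) _
  rw [← iotaG_eq_intGL_gMat, ← iotaG_eq_intGL_gMat]
  exact h2

theorem iotaG_mem_GG {K : ℕ} (g : Gamma0 K) : iotaG K g ∈ GG K := ⟨g, g.2, rfl⟩

/-- The coset of `(coresRep y)⁻¹` in `Γ₀(N) / Γ₀(N q)` (inside `GL₂(ℝ)`). -/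
def trCoset (N q : ℕ) (y : OnePoint (ZMod q)) : ↥(GG N) ⧸ (GG (N * q)).subgroupOf (GG N) :=
  QuotientGroup.mk (⟨(iotaG N (coresRep N q y))⁻¹, inv_mem (iotaG_mem_GG _)⟩ : ↥(GG N))

theorem trCoset_bijective (hq : q.Prime) (hqN : ¬ q ∣ N) : Bijective (trCoset N q) := by
  constructor
  · intro y y' h
    unfold trCoset at h
    rw [QuotientGroup.eq, Subgroup.mem_subgroupOf] at h
    obtain ⟨e, he, hee⟩ := h
    simp only [Subgroup.coe_mul, InvMemClass.coe_inv, inv_inv] at hee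
    -- `coresRep y * (coresRep y')⁻¹ = e ∈ Γ₀(N q)`
    refine distinct_incl hq hqN y y' ⟨e, he⟩ ?_
    apply iotaG_injective N
    rw [map_mul, iotaG_incl]
    have h1 : iotaG (N * q) ⟨e, he⟩ = mapGL ℝ e := rfl
    rw [h1, hee, inv_mul_cancel_right]
  · intro c
    obtain ⟨⟨g, hg⟩, rfl⟩ := QuotientGroup.mk_surjective c
    obtain ⟨g₀, hg₀, rfl⟩ := hg
    obtain ⟨y, e, hye⟩ := cover_incl hq hqN (⟨g₀, hg₀⟩ : Gamma0 N)⁻¹
    refine ⟨y, ?_⟩
    unfold trCoset
    rw [QuotientGroup.eq, Subgroup.mem_subgroupOf]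
    simp only [Subgroup.coe_mul, InvMemClass.coe_inv, inv_inv]
    refine ⟨(e : SL(2, ℤ))⁻¹, inv_mem e.2, ?_⟩
    have h2 := congrArg (iotaG N) hye
    rw [map_inv, map_mul, iotaG_incl] at h2
    have h3 : iotaG N ⟨g₀, hg₀⟩ = mapGL ℝ g₀ := rfl
    have h4 : iotaG (N * q) e = mapGL ℝ (e : SL(2, ℤ)) := rfl
    rw [h3, h4] at h2
    -- `g₀⁻¹ = e * r`, so `r * g₀ = e⁻¹`
    rw [map_inv]
    have h5 : iotaG N (coresRep N q y) = (mapGL ℝ (e : SL(2, ℤ)))⁻¹ * (mapGL ℝ g₀)⁻¹ := by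
      rw [h2, inv_mul_cancel_left]
    rw [h5, mul_assoc, inv_mul_cancel, mul_one]

/-- The trace as a sum over the explicit representatives `coresRep`. -/
theorem trLin_apply_eq_sum [NeZero N] [NeZero q] (hq : q.Prime) (hqN : ¬ q ∣ N) (k : ℤ)
    (f : CuspForm (Gamma0 (N * q)) k) :
    (⇑(trLin N q k f) : ℍ → ℂ) = ∑ y : OnePoint (ZMod q),
      (f : ℍ → ℂ) ∣[k] intGL (gMat (coresRep N q y)) (det_gMat_pos _).ne' := by
  rw [trLin_apply, CuspForm.coe_trace]
  symm
  refine @Fintype.sum_bijective _ _ _ _ (Fintype.ofFinite _) _ (trCoset N q)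
    (trCoset_bijective hq hqN) _ _ fun y => ?_
  unfold trCoset
  have h1 := SlashInvariantForm.quotientFunc_mk (𝒢 := GG (N * q)) (ℋ := GG N) (k := k) f
    (⟨(iotaG N (coresRep N q y))⁻¹, inv_mem (iotaG_mem_GG _)⟩ : ↥(GG N))
  simp only [inv_inv] at h1
  rw [← iotaG_eq_intGL_gMat]
  exact h1.symm

/-- **NEW-B (1).**  The period map intertwines the trace with the corestriction. -/
theorem periodMap_trLin [NeZero N] [NeZero q] (hq : q.Prime) (hqN : ¬ q ∣ N)
    (f : CuspForm (Gamma0 (N * q)) 2) :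
    periodMap N (trLin N q 2 f) = coresAll N q ℂ (periodMap (N * q) f) := by
  have : NeZero (N * q) := ⟨mul_ne_zero (NeZero.ne N) (NeZero.ne q)⟩
  rw [coresAll_eq_op hq hqN]
  refine periodMap_op (coresW hq hqN) (fun y => gMat (coresRep N q y)) (fun y => det_gMat_pos _)
    (coresW_realizes_GL hq hqN) f (trLin N q 2 f) fun τ => ?_
  rw [trLin_apply_eq_sum hq hqN, Finset.sum_apply]

end Fermat.Agent.LNewB
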