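/-
Cluster L (S41, level raising), work package NEW-B.  Owner: helper8.

The period map intertwines `Tr ∘ W_q : S₂(Γ₀(N q)) → S₂(Γ₀(N))` with the corestriction
`coresAllD` along `γ ↦ δ γ δ⁻¹` (`periodMap_trLin_wLin`).
-/
import Fermat.Agent.L.NewB.Trace

set_option autoImplicit false

noncomputable section

namespace Fermat.Agent.LNewB

open Complex Filter Function CongruenceSubgroup Matrix.SpecialLinearGroup ModularCurve
  ModularCurve.Period Fermat.Agent.LDeg Fermat.Agent.LNew Fermat.Agent.L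
open UpperHalfPlane hiding I
open scoped Real Topology Manifold MatrixGroups ModularForm

variable {N q : ℕ}

/-- The matrix `diag(1, q)`. -/
def dMat (q : ℕ) : Matrix (Fin 2) (Fin 2) ℤ := !![1, 0; 0, (q : ℤ)]

theorem det_dMat (q : ℕ) : (dMat q).det = (q : ℤ) := by
  rw [dMat, Matrix.det_fin_two_of]
  ring

/-- `diag(1, q) * (δ e δ⁻¹) = e * diag(1, q)`. -/
theorem dMat_mul_conjDMat [NeZero q] {e : SL(2, ℤ)} (he : (q : ℤ) ∣ e 1 0) :
    dMat q * conjDMat q e = (e : Matrix (Fin 2) (Fin 2) ℤ) * dMat q := by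
  obtain ⟨c, hc⟩ := he
  have hq : (q : ℤ) ≠ 0 := by exact_mod_cast NeZero.ne q
  have e1 : (e : Matrix (Fin 2) (Fin 2) ℤ) = !![e 0 0, e 0 1; e 1 0, e 1 1] :=
    Matrix.eta_fin_two _
  rw [conjDMat, dMat, Matrix.mul_fin_two]
  conv_rhs => rw [e1, Matrix.mul_fin_two]
  rw [hc, Int.mul_ediv_cancel_left _ hq]
  congr 1
  ext i j
  fin_cases i <;> fin_cases j <;> simp <;> ring

theorem det_dMat_mul_pos [NeZero q] (g : Gamma0 N) : 0 < (dMat q * gMat g).det := by
  rw [Matrix.det_mul, det_dMat, det_gMat, mul_one]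
  exact_mod_cast Nat.pos_of_ne_zero (NeZero.ne q)

/-- `coresDW` is realized in `GL₂(ℝ)` by the matrices `diag(1, q) * coresDRep y`. -/
theorem coresDW_realizes_GL [NeZero q] (hq : q.Prime) (hqN : ¬ q ∣ N) :
    (coresDW hq hqN).Realizes (iotaG N) (iotaG (N * q))
      (fun y => intGL (dMat q * gMat (coresDRep N q y)) (det_dMat_mul_pos _).ne') := by
  intro γ y
  have h := coresDW_realizes hq hqN γ y
  rw [MonoidHom.id_apply] at h
  have h2 := congrArg (fun g : Gamma0 N => gMat g) h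
  simp only [gMat, coe_Gamma0_mul, inclD_coe] at h2
  show intGL (dMat q * gMat (coresDRep N q y)) _ * iotaG N γ =
    iotaG (N * q) ((coresDW hq hqN).elt γ y) *
      intGL (dMat q * gMat (coresDRep N q ((coresDW hq hqN).perm γ y))) _
  rw [iotaG_eq_intGL_gMat, iotaG_eq_intGL_gMat, intGL_mul_eq_mul_iff]
  simp only [gMat]
  rw [Matrix.mul_assoc, h2, ← Matrix.mul_assoc,
    dMat_mul_conjDMat (q_dvd_of_Gamma0_mul ((coresDW hq hqN).elt γ y)), Matrix.mul_assoc]

/-- `g₀ = [q x, y; N, 1] ∈ Γ₀(N)`, so that `w_q = diag(1, q) * g₀`. -/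
def alG (N q : ℕ) : Gamma0 N := mkGamma0 N !![(q : ℤ) * alX N q, alY N q; (N : ℤ), 1]

theorem gMat_alG (hqN : q.Coprime N) :
    gMat (alG N q) = !![(q : ℤ) * alX N q, alY N q; (N : ℤ), 1] :=
  coe_mkGamma0 (by rw [Matrix.det_fin_two_of]; linear_combination al_bezout hqN) (by simp)

theorem alInt_eq_dMat_mul (hqN : q.Coprime N) : alInt N q = dMat q * gMat (alG N q) := by
  rw [gMat_alG hqN, alInt, dMat, Matrix.mul_fin_two]
  congr 1
  ext i j
  fin_cases i <;> fin_cases j <;> simp <;> ring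

theorem gMat_mul {K : ℕ} (a b : Gamma0 K) : gMat (a * b) = gMat a * gMat b :=
  coe_Gamma0_mul a b

theorem gMat_inclD [NeZero q] (e : Gamma0 (N * q)) :
    gMat (inclD N q e) = conjDMat q (e : SL(2, ℤ)) := inclD_coe N q e

/-- Comparison of the two families of representatives: `w_q r_y ∈ Γ₀(N q) diag(1, q) ρ_{y'}`. -/
theorem exists_alInt_mul_eq [NeZero q] (hq : q.Prime) (hqN : ¬ q ∣ N) (hqN' : q.Coprime N)
    (y : OnePoint (ZMod q)) :
    ∃ (y' : OnePoint (ZMod q)) (e : Gamma0 (N * q)),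
      alInt N q * gMat (coresRep N q y) = gMat e * (dMat q * gMat (coresDRep N q y')) := by
  obtain ⟨y', e, h⟩ := cover_inclD hq hqN (alG N q * coresRep N q y)
  refine ⟨y', e, ?_⟩
  have h2 := congrArg (fun g : Gamma0 N => gMat g) h
  simp only [gMat_mul, gMat_inclD] at h2
  rw [alInt_eq_dMat_mul hqN', Matrix.mul_assoc, h2, ← Matrix.mul_assoc,
    dMat_mul_conjDMat (q_dvd_of_Gamma0_mul e), Matrix.mul_assoc]
  rfl

/-- If `w_q g = E w_q` with `g ∈ SL₂(ℤ)` and `E` integral, then `q ∣ g₁₀`. -/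
theorem q_dvd_of_alInt_mul (hqN' : q.Coprime N) (g : SL(2, ℤ)) (E : Matrix (Fin 2) (Fin 2) ℤ)
    (h : alInt N q * (g : Matrix (Fin 2) (Fin 2) ℤ) = E * alInt N q) : (q : ℤ) ∣ g 1 0 := by
  have h00 := congrFun (congrFun h 0) 0
  simp only [alInt, Matrix.mul_apply, Fin.sum_univ_two, Matrix.of_apply, Matrix.cons_val',
    Matrix.cons_val_zero, Matrix.cons_val_one] at h00
  have hbez := al_bezout hqN'
  have hcop : IsCoprime (q : ℤ) (alY N q) := ⟨alX N q, -(N : ℤ), by linear_combination hbez⟩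
  have hdvd : (q : ℤ) ∣ alY N q * g 1 0 :=
    ⟨E 0 0 * alX N q + E 0 1 * N - alX N q * g 0 0, by linear_combination h00⟩
  exact hcop.dvd_of_dvd_mul_left hdvd

theorem slash_iotaG_eq_self {K : ℕ} (f : CuspForm (Gamma0 K) 2) (e : Gamma0 K) :
    (f : ℍ → ℂ) ∣[(2 : ℤ)] iotaG K e = f := by
  have h := S21.slash_eq_self K f e
  rw [ModularForm.SL_slash] at h
  exact h

/-- `Tr ∘ W_q` as a sum over the explicit representatives `diag(1, q) * coresDRep y`. -/
theorem trLin_wLin_apply_eq_sum [NeZero N] [NeZero q] (hq : q.Prime) (hqN : ¬ q ∣ N)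
    (hqN' : q.Coprime N) (f : CuspForm (Gamma0 (N * q)) 2) :
    (⇑(trLin N q 2 (wLin N hqN' 2 f)) : ℍ → ℂ) = ∑ y : OnePoint (ZMod q),
      (f : ℍ → ℂ) ∣[(2 : ℤ)] intGL (dMat q * gMat (coresDRep N q y))
        (det_dMat_mul_pos _).ne' := by
  have : Fact q.Prime := ⟨hq⟩
  choose pm e hpm using exists_alInt_mul_eq hq hqN hqN'
  -- the same in `GL₂(ℝ)`
  have hpm' : ∀ y, alMat N q * iotaG N (coresRep N q y) =
      iotaG (N * q) (e y) * intGL (dMat q * gMat (coresDRep N q (pm y)))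
        (det_dMat_mul_pos _).ne' := by
    intro y
    rw [alMat_eq, iotaG_eq_intGL_gMat, iotaG_eq_intGL_gMat, intGL_mul_eq_mul_iff]
    exact hpm y
  have hinj : Injective pm := by
    intro y₁ y₂ h12
    have h1 := hpm' y₁
    have h2 := hpm' y₂
    rw [h12] at h1
    have key : alMat N q * iotaG N (coresRep N q y₁ * (coresRep N q y₂)⁻¹) =
        iotaG (N * q) (e y₁ * (e y₂)⁻¹) * alMat N q := by
      have h3 : intGL (dMat q * gMat (coresDRep N q (pm y₂))) (det_dMat_mul_pos _).ne' =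
          (iotaG (N * q) (e y₂))⁻¹ * (alMat N q * iotaG N (coresRep N q y₂)) := by
        rw [h2, inv_mul_cancel_left]
      rw [map_mul, map_inv, ← mul_assoc, h1, h3, map_mul, map_inv]
      group
    rw [alMat_eq, iotaG_eq_intGL_gMat, iotaG_eq_intGL_gMat, intGL_mul_eq_mul_iff] at key
    have hdvd := q_dvd_of_alInt_mul hqN'
      ((coresRep N q y₁ * (coresRep N q y₂)⁻¹ : Gamma0 N) : SL(2, ℤ)) _ key
    have hmem : ((coresRep N q y₁ * (coresRep N q y₂)⁻¹ : Gamma0 N) : SL(2, ℤ)) ∈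
        Gamma0 (N * q) := mem_Gamma0_mul hq hqN (Gamma0_dvd _) hdvd
    refine distinct_incl hq hqN y₁ y₂ ⟨_, hmem⟩ ?_
    apply Subtype.ext
    show (coresRep N q y₁ : SL(2, ℤ)) =
      ((coresRep N q y₁ * (coresRep N q y₂)⁻¹ : Gamma0 N) : SL(2, ℤ)) * (coresRep N q y₂ : SL(2, ℤ))
    rw [← Subgroup.coe_mul, inv_mul_cancel_right]
  have hbij : Bijective pm := Finite.injective_iff_bijective.mp hinj
  rw [trLin_apply_eq_sum hq hqN]
  refine Fintype.sum_bijective pm hbij _ _ fun y => ?_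
  rw [coe_wLin, ← iotaG_eq_intGL_gMat, ← SlashAction.slash_mul, hpm' y, SlashAction.slash_mul,
    slash_iotaG_eq_self]

/-- **NEW-B (2).**  The period map intertwines `Tr ∘ W_q` with the corestriction along
`γ ↦ δ γ δ⁻¹`. -/
theorem periodMap_trLin_wLin [NeZero N] [NeZero q] (hq : q.Prime) (hqN : ¬ q ∣ N)
    (hqN' : q.Coprime N) (f : CuspForm (Gamma0 (N * q)) 2) :
    periodMap N (trLin N q 2 (wLin N hqN' 2 f)) = coresAllD N q ℂ (periodMap (N * q) f) := by
  have : NeZero (N * q) := ⟨mul_ne_zero (NeZero.ne N) (NeZero.ne q)⟩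
  rw [coresAllD_eq_op hq hqN]
  refine periodMap_op (coresDW hq hqN) (fun y => dMat q * gMat (coresDRep N q y))
    (fun y => det_dMat_mul_pos _) (coresDW_realizes_GL hq hqN) f _ fun τ => ?_
  rw [trLin_wLin_apply_eq_sum hq hqN hqN', Finset.sum_apply]

end Fermat.Agent.LNewB
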