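/-
Cluster L (S41, level raising), work packages NEW-A + NEW-B: the interface proposition
`LNewC.NewFormsStatement N q` of NEW-C (helper67), from
* NEW-A (helper63): `LNew.heckeU_heckeU_of_tr_eq_zero`,
* NEW-B (helper8): `LNewB.periodMap_trLin`, `LNewB.periodMap_trLin_wLin`.
-/
import Fermat.Agent.L.NewB.TraceD
import Fermat.Agent.L.New.Main
import Fermat.Agent.L.NewC.Interfaces

set_option autoImplicit false

noncomputable section

namespace Fermat.Agent.LNewB

open CongruenceSubgroup ModularCurve ModularCurve.Period Fermat.Agent.L Fermat.Agent.LNew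
open scoped MatrixGroups

/-- **WP NEW-A + NEW-B.**  `tr = Tr`, `trD = Tr ∘ W_q`. -/
theorem newFormsStatement (N q : ℕ) [NeZero q] : Fermat.Agent.LNewC.NewFormsStatement N q := by
  intro hq hqN hN
  have : NeZero N := ⟨hN.ne'⟩
  have : Fact q.Prime := ⟨hq⟩
  have hqN' : q.Coprime N := (Nat.Prime.coprime_iff_not_dvd hq).mpr hqN
  refine ⟨trLin N q 2, (trLin N q 2).comp (wLin N hqN' 2), fun f => periodMap_trLin hq hqN f,
    fun f => ?_, fun h h1 h2 => ?_⟩
  · rw [LinearMap.comp_apply]
    exact periodMap_trLin_wLin hq hqN hqN' f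
  · rw [LinearMap.comp_apply] at h2
    exact heckeU_heckeU_of_tr_eq_zero hqN' h h1 h2

end Fermat.Agent.LNewB
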